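/-
S37 (project E): a Frobenius lift exists at EVERY valuation subring of `ℚ̄` over `ℓ`
(existence at one `A₀` + transitivity of the Galois action + conjugation), and an elementwise
characterisation of `IsFrobeniusAt`.
-/
import Mathlib
import Fermat.Prelude.Def_EllipticCurve_FrobeniusTrace
import Fermat.Agent.Lib.Frobenius
import Fermat.Agent.S13.ValSubringZbar

set_option autoImplicit false

open scoped Pointwise

namespace Fermat.Agent.S37.FrobeniusEvery

open ValuationSubring IsLocalRing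

section general

variable {k K : Type*} [Field k] [Field K] [Algebra k K] {A : ValuationSubring K}

/-- Elementwise description of Frobenius lifts. -/
theorem isFrobeniusAt_iff_forall {σ : K ≃ₐ[k] K} {q : ℕ} :
    A.IsFrobeniusAt σ q ↔ σ • A = A ∧ ∀ x ∈ A, σ x - x ^ q ∈ A.nonunits := by
  constructor
  · rintro ⟨hdec, hres⟩
    refine ⟨hdec, fun x hx => ?_⟩
    have h2 := hres (residue A ⟨x, hx⟩)
    rw [← IsLocalRing.ResidueField.residue_smul, ← map_pow, ← sub_eq_zero, ← map_sub,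
      residue_eq_zero_iff, ValuationSubring.valuation_lt_one_iff] at h2
    exact (A.mem_nonunits_iff).mpr h2
  · rintro ⟨hstab, hres⟩
    have hdec : σ ∈ A.decompositionSubgroup k := hstab
    refine ⟨hdec, fun x => ?_⟩
    obtain ⟨a, rfl⟩ := residue_surjective x
    rw [← IsLocalRing.ResidueField.residue_smul, ← map_pow, ← sub_eq_zero, ← map_sub,
      residue_eq_zero_iff, ValuationSubring.valuation_lt_one_iff]
    exact (ValuationSubring.mem_nonunits_iff A).mp (hres a a.2)

/-- Conjugating a Frobenius lift at `A` by `τ` gives a Frobenius lift at `τ • A`. -/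
theorem isFrobeniusAt_smul {σ : K ≃ₐ[k] K} {q : ℕ} (τ : K ≃ₐ[k] K)
    (hσ : A.IsFrobeniusAt σ q) : (τ • A).IsFrobeniusAt (τ * σ * τ⁻¹) q := by
  rw [isFrobeniusAt_iff_forall] at hσ ⊢
  obtain ⟨hstab, hres⟩ := hσ
  constructor
  · rw [mul_smul, mul_smul, inv_smul_smul, hstab]
  · intro x hx
    rw [ValuationSubring.mem_pointwise_smul_iff_inv_smul_mem] at hx
    have h1 := hres _ hx
    rw [← Fermat.Agent.S13.ValSubringZbar.apply_mem_nonunits_smul_iff A τ] at h1
    have h2 : (τ * σ * τ⁻¹) x - x ^ q = τ (σ (τ⁻¹ • x) - (τ⁻¹ • x) ^ q) := by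
      rw [map_sub, map_pow]
      simp [AlgEquiv.mul_apply, AlgEquiv.smul_def]
    rw [h2]
    exact h1

end general

/-- **A Frobenius lift exists at every valuation subring of `ℚ̄` over `ℓ`.** -/
theorem exists_isFrobeniusAt_of_liesOver {ℓ : ℕ} (hℓ : ℓ.Prime)
    (A : ValuationSubring (AlgebraicClosure ℚ)) (hA : A.LiesOverPrime ℓ) :
    ∃ σ : AlgebraicClosure ℚ ≃ₐ[ℚ] AlgebraicClosure ℚ, A.IsFrobeniusAt σ ℓ := by
  obtain ⟨A₀, σ₀, hA₀, hσ₀⟩ := Fermat.Agent.Lib.exists_isFrobeniusAt ℓ hℓ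
  obtain ⟨τ, rfl⟩ := Fermat.Agent.S13.ValSubringZbar.exists_smul_eq hℓ hA₀ hA
  exact ⟨τ * σ₀ * τ⁻¹, isFrobeniusAt_smul τ hσ₀⟩

end Fermat.Agent.S37.FrobeniusEvery
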