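import Fermat.Agent.Lib.Frobenius

/-!
# A Frobenius element exists at EVERY valuation subring of `ℚ̄` over `ℓ`

`Fermat.Agent.Lib.exists_isFrobeniusAt` produces a Frobenius element for SOME valuation subring
over `ℓ`; `ModularCurve.SpecializationExists` quantifies over all of them.
-/

set_option autoImplicit false
set_option linter.style.haveILetI false

namespace Fermat.Agent.S37.FrobAt

open Fermat.Agent.Lib.Frob
open scoped Pointwise

attribute [local instance] Fermat.Agent.Lib.Frob.instIsAlgClosureRat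
  Fermat.Agent.Lib.Frob.instMulSemiringActionZbar Fermat.Agent.Lib.Frob.instIsInvariantZbar

/-- A Frobenius lift for a GIVEN maximal ideal of `Zbar` over `ℓ`. -/
theorem exists_frobenius_lift_of (ℓ : ℕ) (hℓ : ℓ.Prime) (Q : Ideal Zbar) (hQmax : Q.IsMaximal)
    (hℓQ : ((ℓ : ℤ) : Zbar) ∈ Q) :
    (∀ n : ℤ, (n : Zbar) ∈ Q → (ℓ : ℤ) ∣ n) ∧
    ∃ g : AlgebraicClosure ℚ ≃ₐ[ℚ] AlgebraicClosure ℚ,
      g • Q = Q ∧ ∀ b : Zbar, g • b - b ^ ℓ ∈ Q := by
  letI : TopologicalSpace Zbar := ⊥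
  haveI : DiscreteTopology Zbar := ⟨rfl⟩
  haveI : ContinuousSMul (AlgebraicClosure ℚ ≃ₐ[ℚ] AlgebraicClosure ℚ) Zbar :=
    continuousSMul_iff_stabilizer_isOpen.mpr stabilizer_isOpen_Zbar
  let P : Ideal ℤ := Ideal.span {(ℓ : ℤ)}
  haveI hPmax : P.IsMaximal :=
    PrincipalIdealRing.isMaximal_of_irreducible (Nat.prime_iff_prime_int.mp hℓ).irreducible
  haveI : Q.IsPrime := hQmax.isPrime
  have hQP : Ideal.comap (algebraMap ℤ Zbar) Q = P := by
    symm
    refine hPmax.eq_of_le (Ideal.comap_ne_top _ hQmax.ne_top) ?_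
    rw [Ideal.span_le, Set.singleton_subset_iff]
    show algebraMap ℤ Zbar (ℓ : ℤ) ∈ Q
    simpa using hℓQ
  haveI : Q.LiesOver P := ⟨hQP.symm⟩
  have hQℓ : ∀ n : ℤ, (n : Zbar) ∈ Q → (ℓ : ℤ) ∣ n := by
    intro n hn
    have : n ∈ Ideal.comap (algebraMap ℤ Zbar) Q := by simpa using hn
    rw [hQP] at this
    exact Ideal.mem_span_singleton.mp this
  refine ⟨hQℓ, ?_⟩
  haveI : CharP (Zbar ⧸ Q) ℓ := by
    refine ⟨fun n => ?_⟩
    rw [← map_natCast (Ideal.Quotient.mk Q), Ideal.Quotient.eq_zero_iff_mem]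
    constructor
    · intro h
      have := hQℓ (n : ℤ) (by simpa using h)
      exact_mod_cast this
    · rintro ⟨k, rfl⟩
      have : ((ℓ * k : ℕ) : Zbar) = ((ℓ : ℤ) : Zbar) * (k : Zbar) := by push_cast; ring
      rw [this]
      exact Q.mul_mem_right _ hℓQ
  haveI : Fact ℓ.Prime := ⟨hℓ⟩
  have hinj : Function.Injective (frobenius (Zbar ⧸ Q) ℓ) := frobenius_inj (Zbar ⧸ Q) ℓ
  have hsurj : Function.Surjective (frobenius (Zbar ⧸ Q) ℓ) := by
    intro x
    obtain ⟨b, rfl⟩ := Ideal.Quotient.mk_surjective x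
    obtain ⟨c, hc⟩ := IsAlgClosed.exists_pow_nat_eq (b : AlgebraicClosure ℚ) hℓ.pos
    have hcint : IsIntegral ℤ c := IsIntegral.of_pow hℓ.pos (hc ▸ b.2)
    refine ⟨Ideal.Quotient.mk Q ⟨c, hcint⟩, ?_⟩
    rw [frobenius_def, ← map_pow]
    congr 1
    exact Subtype.ext hc
  let F : (Zbar ⧸ Q) ≃ₐ[ℤ ⧸ P] (Zbar ⧸ Q) :=
    AlgEquiv.ofBijective
      { (frobenius (Zbar ⧸ Q) ℓ) with
        commutes' := by
          intro r
          obtain ⟨n, rfl⟩ := Ideal.Quotient.mk_surjective r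
          show frobenius (Zbar ⧸ Q) ℓ _ = _
          have : algebraMap (ℤ ⧸ P) (Zbar ⧸ Q) (Ideal.Quotient.mk P n) = ((n : ℤ) : Zbar ⧸ Q) := by
            rw [Ideal.Quotient.algebraMap_mk_of_liesOver]
            simp
          rw [this, map_intCast] }
      ⟨hinj, hsurj⟩
  obtain ⟨⟨g, hg⟩, hgF⟩ := Ideal.Quotient.stabilizerHom_surjective_of_profinite
    (G := AlgebraicClosure ℚ ≃ₐ[ℚ] AlgebraicClosure ℚ) P Q F
  refine ⟨g, hg, fun b => ?_⟩
  have h1 := congrArg (fun e => e (Ideal.Quotient.mk Q b)) hgF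
  simp only [Ideal.Quotient.stabilizerHom_apply] at h1
  have h2 : F (Ideal.Quotient.mk Q b) = (Ideal.Quotient.mk Q b) ^ ℓ := rfl
  rw [h2, ← map_pow] at h1
  exact Ideal.Quotient.eq.mp h1


/-- Algebraic integers lie in every valuation subring of `ℚ̄`. -/
theorem zbar_mem (A : ValuationSubring (AlgebraicClosure ℚ)) (b : Zbar) :
    (b : AlgebraicClosure ℚ) ∈ A := by
  have h1 : IsIntegral ℤ (b : AlgebraicClosure ℚ) := b.2
  have h2 : IsIntegral A (b : AlgebraicClosure ℚ) := h1.tower_top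
  obtain ⟨y, hy⟩ := IsIntegrallyClosed.isIntegral_iff.mp h2
  rw [← hy]
  exact y.2

/-- The inclusion of the algebraic integers into a valuation subring of `ℚ̄`. -/
noncomputable def incl (A : ValuationSubring (AlgebraicClosure ℚ)) : Zbar →+* A where
  toFun b := ⟨(b : AlgebraicClosure ℚ), zbar_mem A b⟩
  map_one' := rfl
  map_mul' _ _ := rfl
  map_zero' := rfl
  map_add' _ _ := rfl

@[simp] theorem coe_incl (A : ValuationSubring (AlgebraicClosure ℚ)) (b : Zbar) :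
    ((incl A b : A) : AlgebraicClosure ℚ) = (b : AlgebraicClosure ℚ) := rfl

/-- The prime of `Zbar` cut out by a valuation subring. -/
noncomputable def primeOf (A : ValuationSubring (AlgebraicClosure ℚ)) : Ideal Zbar :=
  Ideal.comap (incl A) (IsLocalRing.maximalIdeal A)

theorem mem_primeOf {A : ValuationSubring (AlgebraicClosure ℚ)} {b : Zbar} :
    b ∈ primeOf A ↔ A.valuation (b : AlgebraicClosure ℚ) < 1 := by
  rw [primeOf, Ideal.mem_comap, ValuationSubring.valuation_lt_one_iff]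
  rfl

instance (A : ValuationSubring (AlgebraicClosure ℚ)) : (primeOf A).IsPrime :=
  Ideal.comap_isPrime _ _

theorem primeOf_isMaximal (A : ValuationSubring (AlgebraicClosure ℚ)) (ℓ : ℕ) (hℓ : ℓ.Prime)
    (hA : A.LiesOverPrime ℓ) : (primeOf A).IsMaximal ∧ ((ℓ : ℤ) : Zbar) ∈ primeOf A := by
  have hℓQ : ((ℓ : ℤ) : Zbar) ∈ primeOf A := by
    rw [mem_primeOf, ← ValuationSubring.mem_nonunits_iff]
    have : (((ℓ : ℤ) : Zbar) : AlgebraicClosure ℚ) = ((ℓ : ℕ) : AlgebraicClosure ℚ) := by simp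
    rw [this]
    exact hA
  refine ⟨?_, hℓQ⟩
  -- `Zbar ⧸ Q` is an integral domain, integral over the field `ℤ ⧸ ℓ`
  let P : Ideal ℤ := Ideal.span {(ℓ : ℤ)}
  haveI hPmax : P.IsMaximal :=
    PrincipalIdealRing.isMaximal_of_irreducible (Nat.prime_iff_prime_int.mp hℓ).irreducible
  have hQP : Ideal.comap (algebraMap ℤ Zbar) (primeOf A) = P := by
    symm
    refine hPmax.eq_of_le (Ideal.comap_ne_top _ (Ideal.IsPrime.ne_top inferInstance)) ?_
    rw [Ideal.span_le, Set.singleton_subset_iff]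
    show algebraMap ℤ Zbar (ℓ : ℤ) ∈ primeOf A
    simpa using hℓQ
  haveI : (primeOf A).LiesOver P := ⟨hQP.symm⟩
  exact Ideal.IsMaximal.of_liesOver_isMaximal (primeOf A) P


theorem isUnit_incl_of_notMem {A : ValuationSubring (AlgebraicClosure ℚ)} {s : Zbar}
    (hs : s ∉ primeOf A) : IsUnit (incl A s) := by
  by_contra h
  exact hs ((IsLocalRing.mem_maximalIdeal _).mpr h)

/-- Every element of `A` is a fraction of algebraic integers with denominator outside the prime. -/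
theorem exists_frac {A : ValuationSubring (AlgebraicClosure ℚ)} {ℓ : ℕ} (hℓ : ℓ.Prime)
    (hQℓ : ∀ n : ℤ, (n : Zbar) ∈ primeOf A → (ℓ : ℤ) ∣ n) {x : AlgebraicClosure ℚ} (hx : x ∈ A) :
    ∃ b s : Zbar, s ∉ primeOf A ∧ x * (s : AlgebraicClosure ℚ) = b := by
  have h1Q : (1 : Zbar) ∉ primeOf A := fun h =>
    (Ideal.IsPrime.ne_top (inferInstance : (primeOf A).IsPrime)) ((Ideal.eq_top_iff_one _).mpr h)
  by_cases hx0 : x = 0
  · exact ⟨0, 1, h1Q, by simp [hx0]⟩
  obtain ⟨p, hroot, hcoeff⟩ := exists_poly_coeff_notMem (primeOf A) ℓ hℓ hQℓ x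
  rcases frac_or_inv_frac (primeOf A) x p.natDegree p le_rfl hroot hcoeff with h | ⟨b, s, hs, h⟩
  · exact h
  · by_cases hb : b ∈ primeOf A
    · exfalso
      -- then `x⁻¹` is a nonunit of `A`, impossible for `x ∈ A`
      have hsu := isUnit_incl_of_notMem hs
      obtain ⟨⟨t, ht⟩, hst⟩ := isUnit_iff_exists_inv.mp hsu
      have hst' : (s : AlgebraicClosure ℚ) * t = 1 := congrArg Subtype.val hst
      have hxinv : x⁻¹ = (b : AlgebraicClosure ℚ) * t := by
        rw [← h, mul_assoc, hst', mul_one]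
      have hbm : incl A b ∈ IsLocalRing.maximalIdeal A := hb
      have h2 : incl A b * ⟨t, ht⟩ * ⟨x, hx⟩ ∈ IsLocalRing.maximalIdeal A :=
        Ideal.mul_mem_right _ _ (Ideal.mul_mem_right _ _ hbm)
      have h3 : incl A b * ⟨t, ht⟩ * ⟨x, hx⟩ = 1 := by
        apply Subtype.ext
        show (b : AlgebraicClosure ℚ) * t * x = 1
        rw [← hxinv, inv_mul_cancel₀ hx0]
      rw [h3] at h2
      exact (Ideal.IsPrime.ne_top inferInstance) ((Ideal.eq_top_iff_one _).mpr h2)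
    · refine ⟨s, b, hb, ?_⟩
      rw [← h]
      field_simp

/-- **A Frobenius element exists at every valuation subring of `ℚ̄` over `ℓ`.** -/
theorem exists_isFrobeniusAt_of (ℓ : ℕ) (hℓ : ℓ.Prime)
    (A : ValuationSubring (AlgebraicClosure ℚ)) (hA : A.LiesOverPrime ℓ) :
    ∃ σ : AlgebraicClosure ℚ ≃ₐ[ℚ] AlgebraicClosure ℚ, A.IsFrobeniusAt σ ℓ := by
  obtain ⟨hQmax, hℓQ⟩ := primeOf_isMaximal A ℓ hℓ hA
  obtain ⟨hQℓ, g, hgQ, hfrob⟩ := exists_frobenius_lift_of ℓ hℓ (primeOf A) hQmax hℓQ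
  set Q := primeOf A with hQdef
  have hincl : ∀ b : Zbar, (b : AlgebraicClosure ℚ) ∈ A := zbar_mem A
  have hQmem : ∀ (b : Zbar), b ∈ Q →
      (⟨(b : AlgebraicClosure ℚ), hincl b⟩ : A) ∈ IsLocalRing.maximalIdeal A := fun b hb => hb
  have hunit : ∀ (s : Zbar), s ∉ Q → IsUnit (⟨(s : AlgebraicClosure ℚ), hincl s⟩ : A) :=
    fun s hs => isUnit_incl_of_notMem hs
  have hstab : ∀ τ : AlgebraicClosure ℚ ≃ₐ[ℚ] AlgebraicClosure ℚ, τ • Q = Q →
      ∀ x ∈ A, τ x ∈ A := by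
    intro τ hτ x hx
    obtain ⟨b, s, hs, h⟩ := exists_frac hℓ hQℓ hx
    have hs' : τ • s ∉ Q := by
      intro h'
      rw [← hτ] at h'
      exact hs (Ideal.smul_mem_pointwise_smul_iff.mp h')
    obtain ⟨⟨t, ht⟩, hst⟩ := isUnit_iff_exists_inv.mp (hunit _ hs')
    have hst' : τ (s : AlgebraicClosure ℚ) * t = 1 := congrArg Subtype.val hst
    have : τ x = τ (b : AlgebraicClosure ℚ) * t := by
      rw [← h, map_mul, mul_assoc, hst', mul_one]
    rw [this]
    exact A.mul_mem _ _ (hincl (τ • b)) ht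
  have hgQ' : g⁻¹ • Q = Q := by rw [inv_smul_eq_iff, hgQ]
  have hgA : g ∈ A.decompositionSubgroup ℚ := by
    rw [MulAction.mem_stabilizer_iff]
    ext x
    rw [ValuationSubring.mem_pointwise_smul_iff_inv_smul_mem]
    constructor
    · intro hx
      have := hstab g hgQ _ hx
      rwa [AlgEquiv.smul_def, ← AlgEquiv.mul_apply, mul_inv_cancel, AlgEquiv.one_apply] at this
    · intro hx
      exact hstab g⁻¹ hgQ' x hx
  refine ⟨g, hgA, ?_⟩
  intro x
  obtain ⟨a, rfl⟩ := IsLocalRing.residue_surjective x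
  obtain ⟨a, ha⟩ := a
  obtain ⟨b, s, hs, h⟩ := exists_frac hℓ hQℓ ha
  set γ : A.decompositionSubgroup ℚ := ⟨g, hgA⟩ with hγ
  set a' : A := ⟨a, ha⟩ with ha'
  let s' : A := ⟨(s : AlgebraicClosure ℚ), hincl s⟩
  let b' : A := ⟨(b : AlgebraicClosure ℚ), hincl b⟩
  have hab : a' * s' = b' := Subtype.ext h
  have hres : ∀ c : Zbar, IsLocalRing.residue A (γ • (⟨(c : AlgebraicClosure ℚ), hincl c⟩ : A)) =
      IsLocalRing.residue A (⟨(c : AlgebraicClosure ℚ), hincl c⟩ : A) ^ ℓ := by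
    intro c
    rw [← map_pow, ← sub_eq_zero, ← map_sub, IsLocalRing.residue_eq_zero_iff]
    have := hQmem _ (hfrob c)
    convert this using 1
    exact Subtype.ext rfl
  have h2 : γ • a' * γ • s' = γ • b' := by rw [← smul_mul', hab]
  have hs1 : IsLocalRing.residue A (γ • s') = IsLocalRing.residue A s' ^ ℓ := hres s
  have hb1 : IsLocalRing.residue A (γ • b') = IsLocalRing.residue A b' ^ ℓ := hres b
  have h3 : IsLocalRing.residue A (γ • a') * IsLocalRing.residue A s' ^ ℓ =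
      IsLocalRing.residue A a' ^ ℓ * IsLocalRing.residue A s' ^ ℓ := by
    calc IsLocalRing.residue A (γ • a') * IsLocalRing.residue A s' ^ ℓ
        = IsLocalRing.residue A (γ • a') * IsLocalRing.residue A (γ • s') := by rw [hs1]
      _ = IsLocalRing.residue A (γ • b') := by rw [← map_mul, h2]
      _ = IsLocalRing.residue A (a' * s') ^ ℓ := by rw [hb1, hab]
      _ = _ := by rw [map_mul, mul_pow]
  have hs'0 : IsLocalRing.residue A s' ^ ℓ ≠ 0 :=
    pow_ne_zero _ ((hunit s hs).map (IsLocalRing.residue A)).ne_zero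
  have h4 := mul_right_cancel₀ hs'0 h3
  rw [← IsLocalRing.ResidueField.residue_smul]
  exact h4

end Fermat.Agent.S37.FrobAt
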