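import Mathlib
import Fermat.Prelude.Def_ModularCurve_HeckeModule

/-!
# S37, formal top: `SpecializationExists`-type conclusions from the KEY statement

Abstract setting: `J` a `HeckeAlg`-module with a commuting action of `L ≃ₐ[K] L`.
For a valuation subring `A` of `L` and a prime `ℓ` we build `J' := J ⧸ W` (resp. a companion
module when no Frobenius element exists), where `W` is generated by inertia differences and by
the Eichler–Shimura expressions `Φ•Φ•x - T_ℓ•(Φ•x) + ℓ•x`.  All clauses of `IsSpecialization`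
and `SpecialFibreRelation` hold by construction, except `injective_torsion`, which is the KEY
hypothesis.
-/

set_option autoImplicit false

namespace Fermat.Agent.S37.Top

noncomputable section

open ModularCurve ValuationSubring

variable {K L : Type*} [Field K] [Field L] [Algebra K L]
variable {J : Type} [AddCommGroup J] [Module HeckeAlg J]
  [DistribMulAction (L ≃ₐ[K] L) J] [SMulCommClass (L ≃ₐ[K] L) HeckeAlg J]

/-- The symmetric commutation instance. -/
local instance instSMulCommSymm : SMulCommClass HeckeAlg (L ≃ₐ[K] L) J := SMulCommClass.symm _ _ _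

/-- The set of inertia differences `σ • x - x`. -/
def inertiaDiffs (A : ValuationSubring L) : Set J :=
  {y | ∃ σ ∈ A.inertiaSubgroupIn K, ∃ x : J, y = σ • x - x}

/-- The Eichler–Shimura expression attached to `Φ` and the prime `ℓ`. -/
def esExpr (ℓ : ℕ) (hℓ : ℓ.Prime) (Φ : L ≃ₐ[K] L) (x : J) : J :=
  Φ • Φ • x - heckeGen ⟨ℓ, hℓ⟩ • (Φ • x) + ℓ • x

/-- The set of Eichler–Shimura expressions. -/
def esSet (ℓ : ℕ) (hℓ : ℓ.Prime) (Φ : L ≃ₐ[K] L) : Set J :=
  {y | ∃ x : J, y = esExpr ℓ hℓ Φ x}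

/-- The additive subgroup generated by inertia differences. -/
def W0 (A : ValuationSubring L) : AddSubgroup J :=
  AddSubgroup.closure (inertiaDiffs (K := K) (J := J) A)

/-- The additive subgroup generated by inertia differences and Eichler–Shimura expressions. -/
def WΦ (A : ValuationSubring L) (ℓ : ℕ) (hℓ : ℓ.Prime) (Φ : L ≃ₐ[K] L) : AddSubgroup J :=
  AddSubgroup.closure (inertiaDiffs (K := K) (J := J) A ∪ esSet ℓ hℓ Φ)

section Stable

variable (A : ValuationSubring L) (ℓ : ℕ) (hℓ : ℓ.Prime) (Φ : L ≃ₐ[K] L)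

theorem hecke_smul_mem_inertiaDiffs (t : HeckeAlg) {y : J}
    (hy : y ∈ inertiaDiffs (K := K) (J := J) A) : t • y ∈ inertiaDiffs (K := K) (J := J) A := by
  obtain ⟨σ, hσ, x, rfl⟩ := hy
  exact ⟨σ, hσ, t • x, by rw [smul_sub, smul_comm t σ x]⟩

theorem hecke_smul_esExpr (t : HeckeAlg) (x : J) :
    t • esExpr ℓ hℓ Φ x = esExpr ℓ hℓ Φ (t • x) := by
  unfold esExpr
  rw [smul_add, smul_sub, smul_comm t Φ (Φ • x), smul_comm t Φ x,
    smul_comm t (heckeGen ⟨ℓ, hℓ⟩) (Φ • x), smul_comm t Φ x, smul_comm t ℓ x]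

theorem hecke_smul_mem_esSet (t : HeckeAlg) {y : J} (hy : y ∈ esSet ℓ hℓ Φ) :
    t • y ∈ esSet (J := J) ℓ hℓ Φ := by
  obtain ⟨x, rfl⟩ := hy
  exact ⟨t • x, hecke_smul_esExpr ℓ hℓ Φ t x⟩

theorem hecke_smul_mem_closure {S : Set J} (hS : ∀ (t : HeckeAlg) (y : J), y ∈ S → t • y ∈ S)
    (t : HeckeAlg) {y : J} (hy : y ∈ AddSubgroup.closure S) : t • y ∈ AddSubgroup.closure S := by
  induction hy using AddSubgroup.closure_induction with
  | mem y hy => exact AddSubgroup.subset_closure (hS t y hy)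
  | zero => rw [smul_zero]; exact AddSubgroup.zero_mem _
  | add y z _ _ hy hz => rw [smul_add]; exact AddSubgroup.add_mem _ hy hz
  | neg y _ hy => rw [smul_neg]; exact AddSubgroup.neg_mem _ hy

/-- `W0` as a `HeckeAlg`-submodule. -/
def W0sub : Submodule HeckeAlg J where
  carrier := W0 (K := K) (J := J) A
  add_mem' := AddSubgroup.add_mem _
  zero_mem' := AddSubgroup.zero_mem _
  smul_mem' t _ hy :=
    hecke_smul_mem_closure (fun t y hy => hecke_smul_mem_inertiaDiffs A t hy) t hy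

/-- `WΦ` as a `HeckeAlg`-submodule. -/
def WΦsub : Submodule HeckeAlg J where
  carrier := WΦ (K := K) (J := J) A ℓ hℓ Φ
  add_mem' := AddSubgroup.add_mem _
  zero_mem' := AddSubgroup.zero_mem _
  smul_mem' t _ hy :=
    hecke_smul_mem_closure (fun t y hy => by
      rcases hy with hy | hy
      · exact Or.inl (hecke_smul_mem_inertiaDiffs A t hy)
      · exact Or.inr (hecke_smul_mem_esSet ℓ hℓ Φ t hy)) t hy

theorem mem_W0sub {y : J} : y ∈ W0sub (K := K) (J := J) A ↔ y ∈ W0 (K := K) (J := J) A := Iff.rfl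

theorem mem_WΦsub {y : J} :
    y ∈ WΦsub (K := K) (J := J) A ℓ hℓ Φ ↔ y ∈ WΦ (K := K) (J := J) A ℓ hℓ Φ := Iff.rfl

end Stable

section Frobenius

variable {A : ValuationSubring L} {ℓ : ℕ}

/-- Two Frobenius elements differ by an element of the inertia subgroup. -/
theorem inv_mul_mem_inertia {Φ σ : L ≃ₐ[K] L} (hΦ : A.IsFrobeniusAt Φ ℓ)
    (hσ : A.IsFrobeniusAt σ ℓ) : Φ⁻¹ * σ ∈ A.inertiaSubgroupIn K := by
  have hΦD := hΦ.mem_decompositionSubgroup
  have hσD := hσ.mem_decompositionSubgroup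
  set Φ' : A.decompositionSubgroup K := ⟨Φ, hΦD⟩
  set σ' : A.decompositionSubgroup K := ⟨σ, hσD⟩
  refine ⟨Φ'⁻¹ * σ', ?_, rfl⟩
  show Φ'⁻¹ * σ' ∈ MonoidHom.ker
    (MulSemiringAction.toRingAut (A.decompositionSubgroup K) (IsLocalRing.ResidueField A))
  rw [MonoidHom.mem_ker]
  ext x
  show (Φ'⁻¹ * σ') • x = x
  rw [mul_smul, hσ.smul_residue_eq x]
  have h1 : Φ' • (Φ'⁻¹ • x) = (Φ'⁻¹ • x) ^ ℓ := hΦ.smul_residue_eq _
  rw [smul_inv_smul] at h1
  rw [smul_pow', ← h1]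

/-- Conjugating an inertia element by a decomposition element gives an inertia element. -/
theorem conj_mem_inertia {Φ σ : L ≃ₐ[K] L} (hΦ : Φ ∈ A.decompositionSubgroup K)
    (hσ : σ ∈ A.inertiaSubgroupIn K) : Φ * σ * Φ⁻¹ ∈ A.inertiaSubgroupIn K := by
  obtain ⟨τ, hτ, rfl⟩ := hσ
  set Φ' : A.decompositionSubgroup K := ⟨Φ, hΦ⟩
  refine ⟨Φ' * τ * Φ'⁻¹, ?_, rfl⟩
  have hn : (A.inertiaSubgroup K).Normal := by
    unfold ValuationSubring.inertiaSubgroup
    infer_instance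
  exact hn.conj_mem τ hτ Φ'

end Frobenius

section Main

variable (p : ℕ) (A : ValuationSubring L) (ℓ : ℕ) (hℓ : ℓ.Prime)

/-- The action of a Galois element as a `HeckeAlg`-linear endomorphism. -/
def galLin (Φ : L ≃ₐ[K] L) : J →ₗ[HeckeAlg] J where
  toFun x := Φ • x
  map_add' := smul_add Φ
  map_smul' t x := by simp only [RingHom.id_apply]; exact (smul_comm t Φ x).symm

@[simp] theorem galLin_apply (Φ : L ≃ₐ[K] L) (x : J) : galLin (J := J) Φ x = Φ • x := rfl

theorem galois_smul_mem_WΦ {Φ : L ≃ₐ[K] L} (hΦD : Φ ∈ A.decompositionSubgroup K) {y : J}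
    (hy : y ∈ WΦ (K := K) (J := J) A ℓ hℓ Φ) : Φ • y ∈ WΦ (K := K) (J := J) A ℓ hℓ Φ := by
  induction hy using AddSubgroup.closure_induction with
  | mem y hy =>
    rcases hy with ⟨σ, hσ, x, rfl⟩ | ⟨x, rfl⟩
    · refine AddSubgroup.subset_closure (Or.inl ⟨Φ * σ * Φ⁻¹, conj_mem_inertia hΦD hσ, Φ • x, ?_⟩)
      rw [smul_sub, mul_smul, mul_smul, inv_smul_smul]
    · refine AddSubgroup.subset_closure (Or.inr ⟨Φ • x, ?_⟩)
      unfold esExpr
      rw [smul_add, smul_sub, smul_comm Φ (heckeGen ⟨ℓ, hℓ⟩) (Φ • x), smul_comm Φ ℓ x]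
  | zero => rw [smul_zero]; exact AddSubgroup.zero_mem _
  | add y z _ _ hy hz => rw [smul_add]; exact AddSubgroup.add_mem _ hy hz
  | neg y _ hy => rw [smul_neg]; exact AddSubgroup.neg_mem _ hy

/-- **Formal top, Frobenius branch.** -/
theorem exists_specialization_of_frobenius {Φ : L ≃ₐ[K] L} (hΦ : A.IsFrobeniusAt Φ ℓ)
    (hkey : ∀ x : J, (∃ n : ℕ, p ^ n • x = 0) → x ∈ WΦ (K := K) (J := J) A ℓ hℓ Φ → x = 0) :
    ∃ (J' : Type) (_ : AddCommGroup J') (_ : Module HeckeAlg J') (sp : J →+ J')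
      (F : J' →+ J'),
      IsSpecialization (K := K) p J J' A ℓ sp F ∧ SpecialFibreRelation J' ℓ hℓ F := by
  set W : Submodule HeckeAlg J := WΦsub (K := K) (J := J) A ℓ hℓ Φ with hW
  have hstab : W ≤ W.comap (galLin (J := J) Φ) := fun y hy =>
    galois_smul_mem_WΦ A ℓ hℓ hΦ.mem_decompositionSubgroup hy
  refine ⟨J ⧸ W, inferInstance, inferInstance, W.mkQ.toAddMonoidHom,
    (W.mapQ W (galLin (J := J) Φ) hstab).toAddMonoidHom, ⟨?_, ?_, ?_, ?_⟩, ?_⟩
  · intro T x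
    exact map_smul W.mkQ T x
  · intro σ hσ x
    show W.mkQ (σ • x) = W.mkQ x
    rw [← sub_eq_zero, ← map_sub, Submodule.mkQ_apply, Submodule.Quotient.mk_eq_zero]
    exact AddSubgroup.subset_closure (Or.inl ⟨σ, hσ, x, rfl⟩)
  · intro σ hσ x
    show W.mkQ (σ • x) = W.mapQ W (galLin (J := J) Φ) hstab (W.mkQ x)
    rw [Submodule.mkQ_apply, Submodule.mkQ_apply, Submodule.mapQ_apply, galLin_apply,
      ← sub_eq_zero, ← Submodule.Quotient.mk_sub, Submodule.Quotient.mk_eq_zero]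
    have h1 : σ • x - Φ • x = Φ • ((Φ⁻¹ * σ) • x - x) := by
      rw [smul_sub, mul_smul, smul_inv_smul]
    rw [h1]
    refine galois_smul_mem_WΦ A ℓ hℓ hΦ.mem_decompositionSubgroup ?_
    exact AddSubgroup.subset_closure (Or.inl ⟨Φ⁻¹ * σ, inv_mul_mem_inertia hΦ hσ, x, rfl⟩)
  · intro x hx hsp
    refine hkey x hx ?_
    have : W.mkQ x = 0 := hsp
    rwa [Submodule.mkQ_apply, Submodule.Quotient.mk_eq_zero] at this
  · intro y
    obtain ⟨x, rfl⟩ := W.mkQ_surjective y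
    show W.mapQ W (galLin (J := J) Φ) hstab (W.mapQ W (galLin (J := J) Φ) hstab (W.mkQ x))
      - heckeGen ⟨ℓ, hℓ⟩ • W.mapQ W (galLin (J := J) Φ) hstab (W.mkQ x) + ℓ • W.mkQ x = 0
    rw [Submodule.mkQ_apply, Submodule.mapQ_apply, Submodule.mapQ_apply, galLin_apply,
      galLin_apply, ← Submodule.Quotient.mk_smul, ← Submodule.Quotient.mk_sub,
      ← Submodule.Quotient.mk_smul, ← Submodule.Quotient.mk_add, Submodule.Quotient.mk_eq_zero]
    exact AddSubgroup.subset_closure (Or.inr ⟨x, rfl⟩)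

/-- The companion endomorphism `(a, b) ↦ (b, T b - ℓ a)`. -/
def companion (Q : Type) [AddCommGroup Q] [Module HeckeAlg Q] : (Q × Q) →+ (Q × Q) where
  toFun ab := (ab.2, heckeGen ⟨ℓ, hℓ⟩ • ab.2 - ℓ • ab.1)
  map_zero' := by simp
  map_add' x y := by
    ext
    · simp
    · simp only [Prod.snd_add, Prod.fst_add, smul_add]; abel

/-- **Formal top, branch without Frobenius elements.** -/
theorem exists_specialization_of_no_frobenius (hno : ¬ ∃ Φ : L ≃ₐ[K] L, A.IsFrobeniusAt Φ ℓ)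
    (hkey : ∀ x : J, (∃ n : ℕ, p ^ n • x = 0) → x ∈ W0 (K := K) (J := J) A → x = 0) :
    ∃ (J' : Type) (_ : AddCommGroup J') (_ : Module HeckeAlg J') (sp : J →+ J')
      (F : J' →+ J'),
      IsSpecialization (K := K) p J J' A ℓ sp F ∧ SpecialFibreRelation J' ℓ hℓ F := by
  set W : Submodule HeckeAlg J := W0sub (K := K) (J := J) A with hW
  refine ⟨(J ⧸ W) × (J ⧸ W), inferInstance, inferInstance,
    (AddMonoidHom.inl (J ⧸ W) (J ⧸ W)).comp W.mkQ.toAddMonoidHom,
    companion ℓ hℓ (J ⧸ W), ⟨?_, ?_, ?_, ?_⟩, ?_⟩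
  · intro T x
    ext
    · simp
    · simp
  · intro σ hσ x
    have h : W.mkQ (σ • x) = W.mkQ x := by
      rw [← sub_eq_zero, ← map_sub, Submodule.mkQ_apply, Submodule.Quotient.mk_eq_zero]
      exact AddSubgroup.subset_closure ⟨σ, hσ, x, rfl⟩
    simp [h]
  · intro σ hσ
    exact absurd ⟨σ, hσ⟩ hno
  · intro x hx hsp
    refine hkey x hx ?_
    have h1 : W.mkQ x = 0 := by
      have := congrArg Prod.fst hsp
      simpa using this
    rwa [Submodule.mkQ_apply, Submodule.Quotient.mk_eq_zero] at h1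
  · rintro ⟨a, b⟩
    simp only [companion, AddMonoidHom.coe_mk, ZeroHom.coe_mk]
    ext
    · simp
    · simp only [Prod.snd_add, Prod.snd_sub, Prod.smul_snd, Prod.snd_zero, smul_sub]
      rw [smul_comm (heckeGen ⟨ℓ, hℓ⟩) ℓ a]
      abel

/-- **Formal top.** `SpecializationExists`-type conclusion at one `(ℓ, A)` from the two KEY
statements. -/
theorem exists_specialization
    (hkey0 : ∀ x : J, (∃ n : ℕ, p ^ n • x = 0) → x ∈ W0 (K := K) (J := J) A → x = 0)
    (hkeyΦ : ∀ Φ : L ≃ₐ[K] L, A.IsFrobeniusAt Φ ℓ →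
      ∀ x : J, (∃ n : ℕ, p ^ n • x = 0) → x ∈ WΦ (K := K) (J := J) A ℓ hℓ Φ → x = 0) :
    ∃ (J' : Type) (_ : AddCommGroup J') (_ : Module HeckeAlg J') (sp : J →+ J')
      (F : J' →+ J'),
      IsSpecialization (K := K) p J J' A ℓ sp F ∧ SpecialFibreRelation J' ℓ hℓ F := by
  by_cases h : ∃ Φ : L ≃ₐ[K] L, A.IsFrobeniusAt Φ ℓ
  · obtain ⟨Φ, hΦ⟩ := h
    exact exists_specialization_of_frobenius p A ℓ hℓ hΦ (hkeyΦ Φ hΦ)
  · exact exists_specialization_of_no_frobenius p A ℓ hℓ h hkey0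

end Main

end

end Fermat.Agent.S37.Top
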