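import Fermat.Statements.S37

/-!
# S37, formal part: the quotient trick

For one prime `ℓ`, one valuation subring `A` over `ℓ` and one Frobenius element `Φ` at `A`,
the data `(J', sp, F)` demanded by `ModularCurve.SpecializationExists` exist as soon as there is
ONE additive map `ρ : J →+ G` into any abelian group which
(a) kills `σ • x - x` for `σ` in the inertia group, (b) kills `Φ²x - T_ℓ Φ x + ℓ x` for all `x`,
(c) is injective on `p`-power torsion.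
Take `J' := J ⧸ W`, `W` the Hecke submodule generated by the elements in (a) and (b).
-/

noncomputable section

namespace Fermat.Agent.S37.Quot

open ModularCurve

variable {K L : Type*} [Field K] [Field L] [Algebra K L]
variable (J : Type) [AddCommGroup J] [Module HeckeAlg J]
  [DistribMulAction (L ≃ₐ[K] L) J] [SMulCommClass (L ≃ₐ[K] L) HeckeAlg J]

/-- The generators of the submodule we divide out. -/
def gens (A : ValuationSubring L) (ℓ : ℕ) (hℓ : ℓ.Prime) (Φ : L ≃ₐ[K] L) : Set J :=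
  {y | ∃ σ ∈ A.inertiaSubgroupIn K, ∃ x : J, y = σ • x - x} ∪
    {y | ∃ x : J, y = Φ • Φ • x - heckeGen ⟨ℓ, hℓ⟩ • (Φ • x) + ℓ • x}

/-- The Hecke submodule we divide out. -/
def relSub (A : ValuationSubring L) (ℓ : ℕ) (hℓ : ℓ.Prime) (Φ : L ≃ₐ[K] L) :
    Submodule HeckeAlg J :=
  Submodule.span HeckeAlg (gens J A ℓ hℓ Φ)

variable {J}

theorem smul_mem_gens {A : ValuationSubring L} {ℓ : ℕ} {hℓ : ℓ.Prime} {Φ : L ≃ₐ[K] L}
    (T : HeckeAlg) {y : J} (hy : y ∈ gens J A ℓ hℓ Φ) : T • y ∈ gens J A ℓ hℓ Φ := by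
  rcases hy with ⟨σ, hσ, x, rfl⟩ | ⟨x, rfl⟩
  · left
    refine ⟨σ, hσ, T • x, ?_⟩
    rw [smul_sub, smul_comm σ T x]
  · right
    refine ⟨T • x, ?_⟩
    rw [smul_add, smul_sub, smul_comm Φ T x, smul_comm Φ T (Φ • x),
      smul_comm T (heckeGen ⟨ℓ, hℓ⟩) (Φ • x), smul_comm T ℓ x]

/-- An additive map killing the generators kills the whole submodule. -/
theorem map_eq_zero_of_mem_relSub {A : ValuationSubring L} {ℓ : ℕ} {hℓ : ℓ.Prime}
    {Φ : L ≃ₐ[K] L} {G : Type*} [AddCommGroup G] (ρ : J →+ G)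
    (hρ : ∀ y ∈ gens J A ℓ hℓ Φ, ρ y = 0) {y : J} (hy : y ∈ relSub J A ℓ hℓ Φ) : ρ y = 0 := by
  have key : ∀ T : HeckeAlg, ρ (T • y) = 0 := by
    induction hy using Submodule.span_induction with
    | mem y hy => exact fun T => hρ _ (smul_mem_gens T hy)
    | zero => intro T; simp
    | add y z _ _ hy hz => intro T; rw [smul_add, map_add, hy T, hz T, add_zero]
    | smul c y _ hy => intro T; rw [← mul_smul]; exact hy _
  simpa using key 1


section Group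

theorem normal_inertiaSubgroup (K : Type*) {L : Type*} [Field K] [Field L] [Algebra K L]
    (A : ValuationSubring L) : (A.inertiaSubgroup K).Normal := by
  unfold ValuationSubring.inertiaSubgroup
  exact MonoidHom.normal_ker _

variable (K) in
theorem conj_mem_inertiaSubgroupIn {A : ValuationSubring L} {Φ σ : L ≃ₐ[K] L}
    (hΦ : Φ ∈ A.decompositionSubgroup K) (hσ : σ ∈ A.inertiaSubgroupIn K) :
    Φ * σ * Φ⁻¹ ∈ A.inertiaSubgroupIn K := by
  rw [ValuationSubring.inertiaSubgroupIn, Subgroup.mem_map] at hσ ⊢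
  obtain ⟨τ, hτ, hτσ⟩ := hσ
  have h1 : (⟨Φ, hΦ⟩ : A.decompositionSubgroup K) * τ *
      (⟨Φ, hΦ⟩ : A.decompositionSubgroup K)⁻¹ ∈ A.inertiaSubgroup K :=
    (normal_inertiaSubgroup K A).conj_mem τ hτ ⟨Φ, hΦ⟩
  refine ⟨_, h1, ?_⟩
  rw [map_mul, map_mul, map_inv, hτσ]
  rfl

theorem inv_mul_mem_inertiaSubgroupIn {A : ValuationSubring L} {ℓ : ℕ} {Φ σ : L ≃ₐ[K] L}
    (hΦ : A.IsFrobeniusAt Φ ℓ) (hσ : A.IsFrobeniusAt σ ℓ) :
    Φ⁻¹ * σ ∈ A.inertiaSubgroupIn K := by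
  rw [ValuationSubring.inertiaSubgroupIn, Subgroup.mem_map]
  refine ⟨⟨Φ, hΦ.mem_decompositionSubgroup⟩⁻¹ * ⟨σ, hσ.mem_decompositionSubgroup⟩, ?_, ?_⟩
  · rw [ValuationSubring.inertiaSubgroup, MonoidHom.mem_ker]
    ext x
    change (⟨Φ, hΦ.mem_decompositionSubgroup⟩⁻¹ * ⟨σ, hσ.mem_decompositionSubgroup⟩ :
      A.decompositionSubgroup K) • x = x
    rw [mul_smul, hσ.smul_residue_eq, inv_smul_eq_iff, hΦ.smul_residue_eq]
  · rw [map_mul, map_inv]
    rfl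

end Group

section Main

variable (J)

/-- The action of a Galois element as a Hecke-linear map. -/
def galLin (Φ : L ≃ₐ[K] L) : J →ₗ[HeckeAlg] J :=
  DistribSMul.toLinearMap HeckeAlg J Φ

variable {J}

theorem relSub_le_comap {A : ValuationSubring L} {ℓ : ℕ} {hℓ : ℓ.Prime} {Φ : L ≃ₐ[K] L}
    (hΦ : Φ ∈ A.decompositionSubgroup K) :
    relSub J A ℓ hℓ Φ ≤ (relSub J A ℓ hℓ Φ).comap (galLin J Φ) := by
  refine Submodule.span_le.mpr ?_
  rintro y (⟨σ, hσ, x, rfl⟩ | ⟨x, rfl⟩)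
  · refine Submodule.subset_span (Or.inl ⟨Φ * σ * Φ⁻¹, conj_mem_inertiaSubgroupIn K hΦ hσ, Φ • x, ?_⟩)
    change Φ • (σ • x - x) = _
    rw [smul_sub, mul_smul, mul_smul, inv_smul_smul]
  · refine Submodule.subset_span (Or.inr ⟨Φ • x, ?_⟩)
    change Φ • (Φ • Φ • x - heckeGen ⟨ℓ, hℓ⟩ • (Φ • x) + ℓ • x) = _
    rw [smul_add, smul_sub, smul_comm Φ (heckeGen ⟨ℓ, hℓ⟩) (Φ • x), smul_comm Φ ℓ x]

/-- **The quotient trick.** -/
theorem specialization_of_rho (p : ℕ) (A : ValuationSubring L) (ℓ : ℕ) (hℓ : ℓ.Prime)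
    (Φ : L ≃ₐ[K] L) (hΦ : A.IsFrobeniusAt Φ ℓ)
    {G : Type*} [AddCommGroup G] (ρ : J →+ G)
    (ha : ∀ σ ∈ A.inertiaSubgroupIn K, ∀ x : J, ρ (σ • x - x) = 0)
    (hb : ∀ x : J, ρ (Φ • Φ • x - heckeGen ⟨ℓ, hℓ⟩ • (Φ • x) + ℓ • x) = 0)
    (hc : ∀ x : J, (∃ n : ℕ, p ^ n • x = 0) → ρ x = 0 → x = 0) :
    ∃ (J' : Type) (_ : AddCommGroup J') (_ : Module HeckeAlg J') (sp : J →+ J')
      (F : J' →+ J'),
      IsSpecialization (K := K) p J J' A ℓ sp F ∧ SpecialFibreRelation J' ℓ hℓ F := by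
  set W := relSub J A ℓ hℓ Φ with hW
  have hΦD := hΦ.mem_decompositionSubgroup
  have hstab : W ≤ W.comap (galLin J Φ) := relSub_le_comap hΦD
  have hρ : ∀ y ∈ gens J A ℓ hℓ Φ, ρ y = 0 := by
    rintro y (⟨σ, hσ, x, rfl⟩ | ⟨x, rfl⟩)
    · exact ha σ hσ x
    · exact hb x
  refine ⟨J ⧸ W, inferInstance, inferInstance, W.mkQ.toAddMonoidHom,
    (W.mapQ W (galLin J Φ) hstab).toAddMonoidHom, ⟨?_, ?_, ?_, ?_⟩, ?_⟩
  · intro T x
    exact map_smul W.mkQ T x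
  · intro σ hσ x
    change W.mkQ (σ • x) = W.mkQ x
    rw [← sub_eq_zero, ← map_sub, Submodule.mkQ_apply, Submodule.Quotient.mk_eq_zero]
    exact Submodule.subset_span (Or.inl ⟨σ, hσ, x, rfl⟩)
  · intro σ hσ x
    change W.mkQ (σ • x) = W.mapQ W (galLin J Φ) hstab (W.mkQ x)
    rw [Submodule.mkQ_apply, Submodule.mkQ_apply, Submodule.mapQ_apply, ← sub_eq_zero,
      ← Submodule.Quotient.mk_sub, Submodule.Quotient.mk_eq_zero]
    have h1 : σ • x - galLin J Φ x = galLin J Φ ((Φ⁻¹ * σ) • x - x) := by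
      change σ • x - Φ • x = Φ • ((Φ⁻¹ * σ) • x - x)
      rw [smul_sub, mul_smul, smul_inv_smul]
    rw [h1]
    exact hstab (Submodule.subset_span
      (Or.inl ⟨Φ⁻¹ * σ, inv_mul_mem_inertiaSubgroupIn hΦ hσ, x, rfl⟩))
  · intro x hx hsp
    refine hc x hx (map_eq_zero_of_mem_relSub ρ hρ ?_)
    change W.mkQ x = 0 at hsp
    rwa [Submodule.mkQ_apply, Submodule.Quotient.mk_eq_zero] at hsp
  · intro y
    obtain ⟨x, rfl⟩ := W.mkQ_surjective y
    change W.mapQ W (galLin J Φ) hstab (W.mapQ W (galLin J Φ) hstab (W.mkQ x))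
      - heckeGen ⟨ℓ, hℓ⟩ • W.mapQ W (galLin J Φ) hstab (W.mkQ x) + ℓ • W.mkQ x = 0
    simp only [Submodule.mkQ_apply, Submodule.mapQ_apply]
    rw [← Submodule.Quotient.mk_smul, ← Submodule.Quotient.mk_sub, ← Submodule.Quotient.mk_smul,
      ← Submodule.Quotient.mk_add, Submodule.Quotient.mk_eq_zero]
    exact Submodule.subset_span (Or.inr ⟨x, rfl⟩)

end Main

end Fermat.Agent.S37.Quot

end
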