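/-
S37 (project E), leaf (E1): the quotient trick.

`SpecializationExists` asks, at a prime `ℓ` and a valuation subring `A` over `ℓ`, for a
`HeckeAlg`-module `J'`, an additive map `sp : J →+ J'` and an additive endomorphism `F` of `J'`
with `IsSpecialization` and the quadratic relation `F² - T_ℓ F + ℓ = 0` on all of `J'`.

Here we show that it is enough to have ONE additive map `s : J →+ X` into any abelian group
(no Hecke action on `X`, no Frobenius on `X`), and one Frobenius lift `σ₀` at `A`, such that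
* `s` is invariant under the inertia group of `A`,
* the kernel of `s` is stable under `σ₀`,
* `s` is injective on `p`-power torsion,
* `s (σ₀² y - T_ℓ σ₀ y + ℓ y) = 0` for all `y : J`.
One takes `J' := J ⧸ W` with `W := {x | ∀ t : HeckeAlg, s (t • x) = 0}`.
-/
import Fermat.Prelude.Def_HeckeGalois_EichlerShimura

set_option autoImplicit false

namespace Fermat.Agent.S37.QuotientTrick

open ModularCurve

variable {K L : Type*} [Field K] [Field L] [Algebra K L]

/-- Two Frobenius lifts at `A` differ by an element of the inertia group. -/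
theorem inv_mul_mem_inertiaSubgroupIn {A : ValuationSubring L} {ℓ : ℕ}
    {σ σ₀ : L ≃ₐ[K] L} (hσ : A.IsFrobeniusAt σ ℓ) (hσ₀ : A.IsFrobeniusAt σ₀ ℓ) :
    σ₀⁻¹ * σ ∈ A.inertiaSubgroupIn K := by
  have h1 := hσ.mem_decompositionSubgroup
  have h0 := hσ₀.mem_decompositionSubgroup
  have hmem : σ₀⁻¹ * σ ∈ A.decompositionSubgroup K :=
    (A.decompositionSubgroup K).mul_mem ((A.decompositionSubgroup K).inv_mem h0) h1
  refine ⟨⟨σ₀⁻¹ * σ, hmem⟩, ?_, rfl⟩
  show (⟨σ₀⁻¹ * σ, hmem⟩ : A.decompositionSubgroup K) ∈ A.inertiaSubgroup K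
  rw [ValuationSubring.inertiaSubgroup, MonoidHom.mem_ker]
  ext x
  show (⟨σ₀⁻¹ * σ, hmem⟩ : A.decompositionSubgroup K) • x = x
  have e : (⟨σ₀⁻¹ * σ, hmem⟩ : A.decompositionSubgroup K)
      = (⟨σ₀, h0⟩ : A.decompositionSubgroup K)⁻¹ * ⟨σ, h1⟩ := rfl
  rw [e, mul_smul, hσ.smul_residue_eq x, ← hσ₀.smul_residue_eq x, inv_smul_smul]

variable (p : ℕ) (J : Type) [AddCommGroup J] [Module HeckeAlg J]
  [DistribMulAction (L ≃ₐ[K] L) J] [SMulCommClass (L ≃ₐ[K] L) HeckeAlg J]

variable {J} in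
/-- The largest Hecke-stable subgroup of the kernel of `s`. -/
def heckeKer {X : Type*} [AddCommGroup X] (s : J →+ X) : Submodule HeckeAlg J where
  carrier := {x | ∀ t : HeckeAlg, s (t • x) = 0}
  zero_mem' := fun t => by rw [smul_zero, map_zero]
  add_mem' := fun {a b} ha hb t => by rw [smul_add, map_add, ha t, hb t, add_zero]
  smul_mem' := fun c x hx t => by rw [smul_smul]; exact hx (t * c)

variable {J} in
theorem mem_heckeKer {X : Type*} [AddCommGroup X] (s : J →+ X) (x : J) :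
    x ∈ heckeKer s ↔ ∀ t : HeckeAlg, s (t • x) = 0 := Iff.rfl

variable {J} in
/-- The action of a Galois element as a `HeckeAlg`-linear map. -/
def galLin (σ : L ≃ₐ[K] L) : J →ₗ[HeckeAlg] J where
  toFun x := σ • x
  map_add' x y := smul_add σ x y
  map_smul' t x := smul_comm σ t x

variable {J} in
@[simp] theorem galLin_apply (σ : L ≃ₐ[K] L) (x : J) : galLin (K := K) σ x = σ • x := rfl

/-- **Quotient trick.** One additive map `s` with the four properties below produces the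
specialization datum required by `SpecializationExists` at `(ℓ, A)`. -/
theorem exists_specialization
    {X : Type*} [AddCommGroup X] (s : J →+ X)
    (A : ValuationSubring L) (ℓ : ℕ) (hℓ : ℓ.Prime)
    (σ₀ : L ≃ₐ[K] L) (hσ₀ : A.IsFrobeniusAt σ₀ ℓ)
    (hinert : ∀ τ ∈ A.inertiaSubgroupIn K, ∀ x : J, s (τ • x) = s x)
    (hker : ∀ z : J, s z = 0 → s (σ₀ • z) = 0)
    (hinj : ∀ x : J, (∃ n : ℕ, p ^ n • x = 0) → s x = 0 → x = 0)
    (hES : ∀ y : J, s (σ₀ • σ₀ • y - heckeGen ⟨ℓ, hℓ⟩ • (σ₀ • y) + ℓ • y) = 0) :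
    ∃ (J' : Type) (_ : AddCommGroup J') (_ : Module HeckeAlg J') (sp : J →+ J')
      (F : J' →+ J'),
      IsSpecialization (K := K) p J J' A ℓ sp F ∧ SpecialFibreRelation J' ℓ hℓ F := by
  set W : Submodule HeckeAlg J := heckeKer s with hW
  -- `W` is stable under `σ₀`
  have hWσ : W ≤ W.comap (galLin (K := K) σ₀) := by
    intro x hx t
    have : t • (σ₀ • x) = σ₀ • (t • x) := (smul_comm σ₀ t x).symm
    show s (t • (σ₀ • x)) = 0
    rw [this]
    exact hker _ (hx t)
  -- inertia moves nothing modulo `W`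
  have hWI : ∀ τ ∈ A.inertiaSubgroupIn K, ∀ x : J, τ • x - x ∈ W := by
    intro τ hτ x t
    rw [smul_sub, map_sub, ← smul_comm τ t x, hinert τ hτ, sub_self]
  refine ⟨J ⧸ W, inferInstance, inferInstance, W.mkQ.toAddMonoidHom,
    (W.mapQ W (galLin (K := K) σ₀) hWσ).toAddMonoidHom, ⟨?_, ?_, ?_, ?_⟩, ?_⟩
  · -- hecke_comm
    intro T x
    rfl
  · -- inertia_comm
    intro σ hσ x
    show W.mkQ (σ • x) = W.mkQ x
    rw [← sub_eq_zero, ← map_sub, Submodule.mkQ_apply, Submodule.Quotient.mk_eq_zero]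
    exact hWI σ hσ x
  · -- frobenius_comm
    intro σ hσ x
    show W.mkQ (σ • x) = W.mapQ W (galLin (K := K) σ₀) hWσ (W.mkQ x)
    rw [Submodule.mkQ_apply, Submodule.mkQ_apply, Submodule.mapQ_apply, galLin_apply,
      ← sub_eq_zero, ← Submodule.Quotient.mk_sub, Submodule.Quotient.mk_eq_zero]
    have hτ := inv_mul_mem_inertiaSubgroupIn (K := K) hσ hσ₀
    have e : σ • x - σ₀ • x = σ₀ • ((σ₀⁻¹ * σ) • x - x) := by
      rw [smul_sub, mul_smul, smul_inv_smul]
    rw [e]
    exact hWσ (hWI _ hτ x)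
  · -- injective_torsion
    intro x hx hsp
    have hxW : x ∈ W := by
      have : W.mkQ x = 0 := hsp
      rwa [Submodule.mkQ_apply, Submodule.Quotient.mk_eq_zero] at this
    have := hxW 1
    rw [one_smul] at this
    exact hinj x hx this
  · -- the quadratic relation
    intro y'
    obtain ⟨y, rfl⟩ := W.mkQ_surjective y'
    show W.mapQ W (galLin (K := K) σ₀) hWσ (W.mapQ W (galLin (K := K) σ₀) hWσ (W.mkQ y))
        - heckeGen ⟨ℓ, hℓ⟩ • W.mapQ W (galLin (K := K) σ₀) hWσ (W.mkQ y) + ℓ • W.mkQ y = 0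
    simp only [Submodule.mkQ_apply, Submodule.mapQ_apply, galLin_apply]
    rw [← Submodule.Quotient.mk_smul, ← Submodule.Quotient.mk_sub]
    have hn : (ℓ • Submodule.Quotient.mk y : J ⧸ W) = Submodule.Quotient.mk (ℓ • y) := by
      rw [← Submodule.mkQ_apply, ← Submodule.mkQ_apply, map_nsmul]
    rw [hn, ← Submodule.Quotient.mk_add, Submodule.Quotient.mk_eq_zero]
    intro t
    have e : t • (σ₀ • σ₀ • y - heckeGen ⟨ℓ, hℓ⟩ • (σ₀ • y) + ℓ • y)
        = σ₀ • σ₀ • (t • y) - heckeGen ⟨ℓ, hℓ⟩ • (σ₀ • (t • y)) + ℓ • (t • y) := by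
      rw [smul_add, smul_sub, ← smul_comm σ₀ t (σ₀ • y), ← smul_comm σ₀ t y,
        smul_comm t (heckeGen ⟨ℓ, hℓ⟩) (σ₀ • y), smul_comm t ℓ y, ← smul_comm σ₀ t y]
    rw [e]
    exact hES (t • y)

end Fermat.Agent.S37.QuotientTrick
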