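/-
S37 (project E): reduction of the frozen statement S37 to the existence, for every prime `ℓ ∤ N p`,
every valuation subring `A` of `ℚ̄` over `ℓ` and every Frobenius lift `σ₀` at `A`, of ONE additive
map `s : JZero N →+ X` with the four properties (s1)-(s4) of `QuotientTrick.exists_specialization`.
-/
import Fermat.Agent.S37.QuotientTrick
import Fermat.Agent.S37.FrobeniusEvery
import Fermat.Prelude.Def_ModularCurve_HeckeModule

set_option autoImplicit false

namespace Fermat.Agent.S37.Reduce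

open ModularCurve

/-- The data to be produced at `(ℓ, A, σ₀)`: one additive map out of `JZero N`. -/
def HasDetectingMap (N p : ℕ) [NeZero N] (ℓ : ℕ) (hℓ : ℓ.Prime)
    (A : ValuationSubring (AlgebraicClosure ℚ))
    (σ₀ : AlgebraicClosure ℚ ≃ₐ[ℚ] AlgebraicClosure ℚ) : Prop :=
  letI := ModularCurve.heckeModuleBar N
  ∃ (X : Type) (_ : AddCommGroup X) (s : ModularCurve.JZero N →+ X),
    (∀ τ ∈ A.inertiaSubgroupIn ℚ, ∀ x : ModularCurve.JZero N, s (τ • x) = s x) ∧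
    (∀ z : ModularCurve.JZero N, s z = 0 → s (σ₀ • z) = 0) ∧
    (∀ x : ModularCurve.JZero N, (∃ n : ℕ, p ^ n • x = 0) → s x = 0 → x = 0) ∧
    (∀ y : ModularCurve.JZero N,
      s (σ₀ • σ₀ • y - heckeGen ⟨ℓ, hℓ⟩ • (σ₀ • y) + ℓ • y) = 0)

/-- S37 from detecting maps. -/
theorem specializationExists_of_detecting (N p : ℕ) [NeZero N]
    (H : ∀ (ℓ : ℕ) (hℓ : ℓ.Prime), ¬ ℓ ∣ N * p →
      ∀ A : ValuationSubring (AlgebraicClosure ℚ), A.LiesOverPrime ℓ →
        ∀ σ₀ : AlgebraicClosure ℚ ≃ₐ[ℚ] AlgebraicClosure ℚ, A.IsFrobeniusAt σ₀ ℓ →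
          HasDetectingMap N p ℓ hℓ A σ₀) :
    letI := ModularCurve.heckeModuleBar N
    ∀ (_ : SMulCommClass (AlgebraicClosure ℚ ≃ₐ[ℚ] AlgebraicClosure ℚ) ModularCurve.HeckeAlg
        (ModularCurve.JZero N)),
      ModularCurve.SpecializationExists (K := ℚ) (L := AlgebraicClosure ℚ) N p
        (ModularCurve.JZero N) := by
  letI := ModularCurve.heckeModuleBar N
  intro hGT ℓ hℓ hℓNp A hA
  obtain ⟨σ₀, hσ₀⟩ := FrobeniusEvery.exists_isFrobeniusAt_of_liesOver hℓ A hA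
  obtain ⟨X, instX, s, h1, h2, h3, h4⟩ := H ℓ hℓ hℓNp A hA σ₀ hσ₀
  exact QuotientTrick.exists_specialization (K := ℚ) p (ModularCurve.JZero N) s A ℓ hℓ σ₀ hσ₀
    h1 h2 h3 h4

end Fermat.Agent.S37.Reduce
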